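import Fermat.Agent.A3.H559.Root
import Fermat.Agent.A3.H319.Embed
import Fermat.Agent.S24.H117.EmbPlace

/-!
# A3 / FIN (helper559): finiteness of `Pic⁰(F_N)[n]`, `F_N = ℚ̄(X₀(N))`

`finite_torsion_of_inj`: the `n`-torsion of `Pic⁰` of the function field of `X₀(N)` over `ℚ̄`
is finite, *given* the descent statement `InjStatement N n` (a `Γ₀(N)`-invariant `n`-th root,
in the field `MerH` of meromorphic functions on `ℍ`, of a function `f ∈ F_N` comes from an
`n`-th root of `f` inside `F_N`).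

Proof: to a class `x` killed by `n` attach a divisor `D`, a function `f` with `div f = n D` and
an `n`-th root `H ∈ MerH` of `f` (`exists_root_MerH`; the orders of `f` at all `τ ∈ ℍ` are
divisible by `n` since `τ` induces a place of `F_N`, `dvd_ordM_merEmb`).  The map
`x ↦ (γ ↦ (γ • H) / H)`, `γ` in a finite generating set of `Γ₀(N)`, takes values in the finite
set of `n`-th roots of unity of `MerH` and is injective by `InjStatement`.
-/

set_option autoImplicit false

noncomputable section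

open UpperHalfPlane ModularCurve AlgebraicCurve
open scoped MatrixGroups

namespace Fermat.Agent.A3.H559

open Fermat.Agent.S24 Fermat.Agent.S24.H624 Fermat.Agent.S24.H997 Fermat.Agent.S24.H117
open Fermat.Agent.A3.H319

/-! ### FG: `Γ₀(N)` is finitely generated -/

theorem group_fg_SL2Z : Group.FG SL(2, ℤ) := by
  rw [Group.fg_iff]
  exact ⟨{ModularGroup.S, ModularGroup.T}, SpecialLinearGroup.SL2Z_generators, by simp⟩

theorem exists_finset_closure_eq_Gamma0 (N : ℕ) [NeZero N] :
    ∃ S : Finset SL(2, ℤ),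
      Subgroup.closure (S : Set SL(2, ℤ)) = CongruenceSubgroup.Gamma0 N := by
  have := group_fg_SL2Z
  have h : Group.FG (CongruenceSubgroup.Gamma0 N) := Subgroup.fg_of_index_ne_zero _
  exact (Group.fg_iff_subgroup_fg _).mp h

/-! ### E-ord: divisibility of the orders at the points of `ℍ` -/

variable (N : ℕ) [NeZero N]

/-- The Laurent expansion at `τ` of the modular function attached to `f ∈ F_N`. -/
def sigmaAt (τ : ℍ) : FF N →+* LaurentSeries ℂ := (laurentAt τ).comp (merEmb N)

theorem eord_sigmaAt (τ : ℍ) (f : FF N) : eord (sigmaAt N τ) f = ordM τ (merEmb N f) := rfl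

theorem eord_sigmaAt_const (τ : ℍ) (c : Kbar) :
    0 ≤ eord (sigmaAt N τ) (algebraMap Kbar (FF N) c) := by
  rw [eord_sigmaAt, merEmb_algebraMap]
  have h : (algebraMap ℂ MerH (ιK c))
      = algebraMap holoRing MerH (algebraMap ℂ holoRing (ιK c)) := rfl
  rw [h]
  exact ordM_algebraMap_nonneg τ _

theorem dvd_ordM_merEmb {n : ℕ} {f : FF N}
    (hf : ∀ v : Place Kbar (FF N), (n : ℤ) ∣ v.ord f) (τ : ℍ) :
    (n : ℤ) ∣ ordM τ (merEmb N f) := by
  by_cases hnt : ∃ t : FF N, eord (sigmaAt N τ) t ≠ 0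
  · obtain ⟨k, -, hk⟩ := exists_mult (K := Kbar) (sigmaAt N τ) (eord_sigmaAt_const N τ) hnt
    rw [← eord_sigmaAt, hk f]
    exact Dvd.dvd.mul_left (hf _) _
  · have hnt' : ∀ t : FF N, eord (sigmaAt N τ) t = 0 := fun t => by
      by_contra h
      exact hnt ⟨t, h⟩
    rw [← eord_sigmaAt, hnt' f]
    exact dvd_zero _

/-! ### The descent statement and the assembly -/

/-- **INJ** (descent): a `Γ₀(N)`-invariant `n`-th root in `MerH` of (the image of) a nonzero
`g ∈ F_N` forces `g` to be an `n`-th power in `F_N`. -/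
def InjStatement (n : ℕ) : Prop :=
  ∀ (g : FF N) (H : MerH), g ≠ 0 → H ^ n = merEmb N g →
    (∀ γ ∈ CongruenceSubgroup.Gamma0 N, γ • H = H) → ∃ h : FF N, h ^ n = g

/-- The stronger form: the root lies in the image of `F_N`. -/
theorem injStatement_of_mem_range (n : ℕ)
    (h : ∀ (g : FF N) (H : MerH), g ≠ 0 → H ^ n = merEmb N g →
      (∀ γ ∈ CongruenceSubgroup.Gamma0 N, γ • H = H) → H ∈ Set.range (merEmb N)) :
    InjStatement N n := by
  intro g H hg hH hinv
  obtain ⟨x, rfl⟩ := h g H hg hH hinv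
  refine ⟨x, merEmb_injective N ?_⟩
  rw [map_pow, hH]

section Assembly

variable {N} {n : ℕ}

/-- Data attached to an `n`-torsion class. -/
theorem exists_data (hn : n ≠ 0) (x : Pic0.torsion Kbar (FF N) n) :
    ∃ (D : Divisor.degZero (K := Kbar) (F := FF N)) (f : FF N) (H : MerH),
      Pic0.mk D = (x : Pic0 Kbar (FF N)) ∧ f ≠ 0 ∧
      (∀ v : Place Kbar (FF N), v.ord f = n * (D : Divisor Kbar (FF N)) v) ∧
      H ^ n = merEmb N f := by
  obtain ⟨D, hD⟩ := Pic0.mk_surjective (x : Pic0 Kbar (FF N))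
  have hx : (n : ℤ) • (x : Pic0 Kbar (FF N)) = 0 := Pic0.mem_torsion.mp x.2
  have h1 : ((QuotientAddGroup.mk ((n : ℤ) • D) : Pic0 Kbar (FF N))) = 0 := by
    rw [QuotientAddGroup.mk_zsmul]
    have : (QuotientAddGroup.mk D : Pic0 Kbar (FF N)) = x := hD
    rw [this, hx]
  rw [QuotientAddGroup.eq_zero_iff, AddSubgroup.mem_addSubgroupOf] at h1
  obtain ⟨f, hf0, hf⟩ := h1
  have hord : ∀ v : Place Kbar (FF N), v.ord f = n * (D : Divisor Kbar (FF N)) v := by
    intro v
    rw [← hf v]
    simp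
  have hdvd : ∀ v : Place Kbar (FF N), (n : ℤ) ∣ v.ord f := fun v => ⟨_, hord v⟩
  have hE0 : merEmb N f ≠ 0 := by
    intro h
    exact hf0 (merEmb_injective N (by rw [h, map_zero]))
  obtain ⟨H, hH⟩ := exists_root_MerH hE0 hn (dvd_ordM_merEmb N hdvd)
  exact ⟨D, f, H, hD, hf0, hord, hH⟩

theorem finite_rootsOfOne (hn : n ≠ 0) : Finite {y : MerH // y ^ n = 1} := by
  classical
  have h : {y : MerH | y ^ n = 1}.Finite := by
    refine Set.Finite.subset (Polynomial.nthRoots n (1 : MerH)).toFinset.finite_toSet ?_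
    intro y hy
    simp only [Finset.mem_coe, Multiset.mem_toFinset,
      Polynomial.mem_nthRoots (Nat.pos_of_ne_zero hn)]
    exact hy
  exact h.to_subtype

/-- The main step: two torsion classes with the same "character" on generators agree. -/
theorem mk_eq_of_char_eq (hn : n ≠ 0) (hinj : InjStatement N n)
    {S : Set SL(2, ℤ)} (hS : Subgroup.closure S = CongruenceSubgroup.Gamma0 N)
    {D D' : Divisor.degZero (K := Kbar) (F := FF N)} {f f' : FF N} {H H' : MerH}
    (hf : f ≠ 0) (hf' : f' ≠ 0)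
    (hord : ∀ v : Place Kbar (FF N), v.ord f = n * (D : Divisor Kbar (FF N)) v)
    (hord' : ∀ v : Place Kbar (FF N), v.ord f' = n * (D' : Divisor Kbar (FF N)) v)
    (hH : H ^ n = merEmb N f) (hH' : H' ^ n = merEmb N f')
    (hchar : ∀ γ ∈ S, (γ • H) / H = (γ • H') / H') :
    Pic0.mk D = Pic0.mk D' := by
  have hE0 : merEmb N f ≠ 0 := fun h => hf (merEmb_injective N (by rw [h, map_zero]))
  have hE0' : merEmb N f' ≠ 0 := fun h => hf' (merEmb_injective N (by rw [h, map_zero]))
  have hH0 : H ≠ 0 := by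
    rintro rfl
    rw [zero_pow hn] at hH
    exact hE0 hH.symm
  have hH0' : H' ≠ 0 := by
    rintro rfl
    rw [zero_pow hn] at hH'
    exact hE0' hH'.symm
  -- the quotient is invariant
  have hstab : CongruenceSubgroup.Gamma0 N ≤ MulAction.stabilizer SL(2, ℤ) (H / H') := by
    rw [← hS, Subgroup.closure_le]
    intro γ hγ
    rw [SetLike.mem_coe, MulAction.mem_stabilizer_iff, smul_div₀']
    have h1 := hchar γ hγ
    have hγH : γ • H ≠ 0 := by
      intro h
      apply hH0
      have := congrArg (fun x => γ⁻¹ • x) h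
      simpa using this
    have hγH' : γ • H' ≠ 0 := by
      intro h
      apply hH0'
      have := congrArg (fun x => γ⁻¹ • x) h
      simpa using this
    rw [div_eq_div_iff hH0 hH0'] at h1
    rw [div_eq_div_iff hγH' hH0']
    rw [h1]
    ring
  have hinv : ∀ γ ∈ CongruenceSubgroup.Gamma0 N, γ • (H / H') = H / H' := fun γ hγ =>
    MulAction.mem_stabilizer_iff.mp (hstab hγ)
  have hpow : (H / H') ^ n = merEmb N (f / f') := by
    rw [div_pow, hH, hH', map_div₀]
  obtain ⟨h, hh⟩ := hinj (f / f') (H / H') (div_ne_zero hf hf') hpow hinv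
  have hh0 : h ≠ 0 := by
    rintro rfl
    rw [zero_pow hn] at hh
    exact div_ne_zero hf hf' hh.symm
  have hordh : ∀ v : Place Kbar (FF N),
      v.ord h = (D : Divisor Kbar (FF N)) v - (D' : Divisor Kbar (FF N)) v := by
    intro v
    have h1 : v.ord (h ^ n) = n * v.ord h := by
      have := v.ord_zpow h (n : ℤ)
      rwa [zpow_natCast] at this
    have h2 : v.ord (f / f') = v.ord f - v.ord f' := by
      rw [div_eq_mul_inv, v.ord_mul hf (inv_ne_zero hf'), v.ord_inv]
      ring
    rw [hh, h2, hord v, hord' v, ← mul_sub] at h1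
    have hn' : (n : ℤ) ≠ 0 := by exact_mod_cast hn
    exact (mul_left_cancel₀ hn' h1).symm
  -- conclude
  show (QuotientAddGroup.mk D : Pic0 Kbar (FF N)) = QuotientAddGroup.mk D'
  rw [QuotientAddGroup.eq, AddSubgroup.mem_addSubgroupOf]
  refine ⟨h⁻¹, inv_ne_zero hh0, fun v => ?_⟩
  rw [v.ord_inv, hordh v]
  simp only [AddSubgroup.coe_add, AddSubgroup.coe_neg, Finsupp.add_apply, Finsupp.neg_apply]
  ring

/-- **FIN**, conditional on the descent statement. -/
theorem finite_torsion_of_inj (hn : n ≠ 0) (hinj : InjStatement N n) :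
    Finite (Pic0.torsion Kbar (FF N) n) := by
  classical
  obtain ⟨S, hS⟩ := exists_finset_closure_eq_Gamma0 N
  choose D f H hD hf hord hH using exists_data (N := N) hn
  have hmem : ∀ γ ∈ S, γ ∈ CongruenceSubgroup.Gamma0 N := fun γ hγ => by
    rw [← hS]
    exact Subgroup.subset_closure hγ
  have hH0 : ∀ x, H x ≠ 0 := by
    intro x h0
    have := hH x
    rw [h0, zero_pow hn] at this
    exact hf x (merEmb_injective N (by rw [← this, map_zero]))
  have hroot : ∀ (x : Pic0.torsion Kbar (FF N) n) (γ : S),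
      (((γ : SL(2, ℤ)) • H x) / H x) ^ n = 1 := by
    intro x γ
    rw [div_pow, ← smul_pow', hH x, smul_merEmb N (hmem γ γ.2), ← hH x,
      div_self (pow_ne_zero n (hH0 x))]
  have := finite_rootsOfOne (n := n) hn
  let Ψ : Pic0.torsion Kbar (FF N) n → (S → {y : MerH // y ^ n = 1}) :=
    fun x γ => ⟨((γ : SL(2, ℤ)) • H x) / H x, hroot x γ⟩
  refine Finite.of_injective Ψ ?_
  intro x x' hxx
  apply Subtype.ext
  rw [← hD x, ← hD x']
  refine mk_eq_of_char_eq hn hinj hS (hf x) (hf x') (hord x) (hord x') (hH x) (hH x') ?_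
  intro γ hγ
  have := congrArg Subtype.val (congrFun hxx ⟨γ, hγ⟩)
  exact this

end Assembly

/-- **FIN** in the shape used by S19: the `ℓ^k`-torsion of `J₀(N)` is finite. -/
theorem finite_torsionBy_JZero_of_inj (ℓ k : ℕ) (hℓ : ℓ ≠ 0) (hinj : InjStatement N (ℓ ^ k)) :
    Finite ↥(Submodule.torsionBy ℤ (JZero N) ((ℓ : ℤ) ^ k)) := by
  have h := finite_torsion_of_inj (N := N) (n := ℓ ^ k) (pow_ne_zero k hℓ) hinj
  have e : (((ℓ ^ k : ℕ) : ℤ)) = (ℓ : ℤ) ^ k := by push_cast; rfl
  unfold Pic0.torsion at h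
  rw [e] at h
  exact h

end Fermat.Agent.A3.H559
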