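import Fermat.Agent.S24.H624.Poles

/-!
# A3 / FIN (helper559): `n`-th roots of meromorphic functions on the upper half-plane

`exists_root_MerH`: a nonzero `F ∈ MerH` all of whose orders are divisible by `n` has an
`n`-th root in `MerH`.
-/

set_option autoImplicit false

namespace Fermat.Agent.A3.H559

open Complex Metric Set Filter
open scoped Topology Manifold

/-- A zero-free holomorphic function on a disc has a holomorphic `n`-th root. -/
theorem exists_root_ball_of_ne_zero {c : ℂ} {r : ℝ} {g : ℂ → ℂ}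
    (hg : DifferentiableOn ℂ g (ball c r)) (hg0 : ∀ z ∈ ball c r, g z ≠ 0)
    {n : ℕ} (hn : n ≠ 0) :
    ∃ h : ℂ → ℂ, DifferentiableOn ℂ h (ball c r) ∧ ∀ z ∈ ball c r, h z ^ n = g z := by
  rcases le_or_gt r 0 with hr | hr
  · refine ⟨fun _ => 0, differentiableOn_const _, fun z hz => ?_⟩
    rw [ball_eq_empty.mpr hr] at hz
    exact absurd hz (notMem_empty z)
  have hc : c ∈ ball c r := mem_ball_self hr
  have hopen : IsOpen (ball c r) := isOpen_ball
  have hdg : DifferentiableOn ℂ (deriv g) (ball c r) := hg.deriv hopen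
  have hf : DifferentiableOn ℂ (fun z => deriv g z / g z) (ball c r) :=
    hdg.div hg hg0
  obtain ⟨L, hL⟩ := hf.isExactOn_ball
  set φ : ℂ → ℂ := fun z => g z * Complex.exp (-(L z)) with hφ
  have hφd : ∀ z ∈ ball c r, HasDerivAt φ 0 z := by
    intro z hz
    have h1 : HasDerivAt g (deriv g z) z :=
      (hg.differentiableAt (hopen.mem_nhds hz)).hasDerivAt
    have h2 : HasDerivAt (fun z => Complex.exp (-(L z)))
        (Complex.exp (-(L z)) * (-(deriv g z / g z))) z := ((hL z hz).neg).cexp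
    have h3 := h1.mul h2
    have h0 : deriv g z * Complex.exp (-(L z))
        + g z * (Complex.exp (-(L z)) * (-(deriv g z / g z))) = 0 := by
      field_simp [hg0 z hz]
      ring
    rw [h0] at h3
    exact h3
  have hφdiff : DifferentiableOn ℂ φ (ball c r) := fun z hz =>
    (hφd z hz).differentiableAt.differentiableWithinAt
  have hconst : ∀ z ∈ ball c r, φ z = φ c := by
    intro z hz
    exact hopen.is_const_of_deriv_eq_zero (convex_ball c r).isPreconnected hφdiff
      (fun w hw => (hφd w hw).deriv) hz hc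
  have hA : φ c ≠ 0 := mul_ne_zero (hg0 c hc) (Complex.exp_ne_zero _)
  obtain ⟨a, ha⟩ : ∃ a : ℂ, a ^ n = φ c := ⟨φ c ^ (1 / (n : ℂ)), by
    rw [one_div, Complex.cpow_nat_inv_pow _ hn]⟩
  refine ⟨fun z => a * Complex.exp (L z / n), ?_, fun z hz => ?_⟩
  · intro z hz
    have : HasDerivAt (fun z => a * Complex.exp (L z / n)) _ z :=
      (((hL z hz).div_const (n : ℂ)).cexp).const_mul a
    exact this.differentiableAt.differentiableWithinAt
  · have h1 : g z = φ c * Complex.exp (L z) := by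
      rw [← hconst z hz, hφ]
      simp only
      rw [mul_assoc, ← Complex.exp_add, neg_add_cancel, Complex.exp_zero, mul_one]
    rw [mul_pow, ha, h1, ← Complex.exp_nat_mul]
    congr 2
    field_simp


/-- Peeling off a zero of exact order `k`. -/
theorem exists_factor_of_order {U : Set ℂ} (hU : IsOpen U) {g : ℂ → ℂ}
    (hg : DifferentiableOn ℂ g U) {w : ℂ} (hw : w ∈ U) {k : ℕ}
    (hk : analyticOrderAt g w = (k : ℕ∞)) :
    ∃ g₁ : ℂ → ℂ, DifferentiableOn ℂ g₁ U ∧ g₁ w ≠ 0 ∧ ∀ z ∈ U, g z = (z - w) ^ k * g₁ z := by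
  classical
  have han : AnalyticAt ℂ g w := hg.analyticAt (hU.mem_nhds hw)
  obtain ⟨g₀, hg₀an, hg₀w, hev⟩ := han.analyticOrderAt_eq_natCast.mp hk
  refine ⟨fun z => if z = w then g₀ w else g z / (z - w) ^ k, ?_, by simpa using hg₀w, ?_⟩
  · intro z hz
    by_cases hzw : z = w
    · subst hzw
      have heq : (fun z' => if z' = z then g₀ z else g z' / (z' - z) ^ k) =ᶠ[𝓝 z] g₀ := by
        filter_upwards [hev] with z' hz'
        by_cases h : z' = z
        · simp [h]
        · have hne : (z' - z) ^ k ≠ 0 := pow_ne_zero _ (sub_ne_zero.mpr h)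
          simp only [h, if_false]
          rw [hz', smul_eq_mul, mul_div_cancel_left₀ _ hne]
      exact (hg₀an.differentiableAt.congr_of_eventuallyEq heq).differentiableWithinAt
    · have hopen : IsOpen (U \ {w}) := hU.sdiff isClosed_singleton
      have hmem : z ∈ U \ {w} := ⟨hz, hzw⟩
      have heq : (fun z' => if z' = w then g₀ w else g z' / (z' - w) ^ k)
          =ᶠ[𝓝 z] fun z' => g z' / (z' - w) ^ k := by
        filter_upwards [hopen.mem_nhds hmem] with z' hz'
        have hne' : z' ≠ w := by simpa using hz'.2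
        simp [hne']
      have hd : DifferentiableAt ℂ (fun z' => g z' / (z' - w) ^ k) z := by
        refine (hg.differentiableAt (hU.mem_nhds hz)).div ?_ (pow_ne_zero _ (sub_ne_zero.mpr hzw))
        exact ((differentiableAt_id).sub_const w).pow k
      exact (hd.congr_of_eventuallyEq heq).differentiableWithinAt
  · intro z hz
    by_cases hzw : z = w
    · subst hzw
      have := hev.self_of_nhds
      simpa using this
    · have hne : (z - w) ^ k ≠ 0 := pow_ne_zero _ (sub_ne_zero.mpr hzw)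
      simp only [hzw, if_false]
      rw [mul_div_cancel₀ _ hne]

/-- Roots on a disc, by induction on a finite set containing the zeros. -/
theorem exists_root_ball_aux {c : ℂ} {r : ℝ} {n : ℕ} (hn : n ≠ 0) (Z : Finset ℂ) :
    ∀ g : ℂ → ℂ, DifferentiableOn ℂ g (ball c r) →
      (∀ z ∈ ball c r, g z = 0 → z ∈ Z) →
      (∀ z ∈ ball c r, ∃ k : ℕ, analyticOrderAt g z = ((n * k : ℕ) : ℕ∞)) →
      ∃ h : ℂ → ℂ, DifferentiableOn ℂ h (ball c r) ∧ ∀ z ∈ ball c r, h z ^ n = g z := by
  classical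
  induction Z using Finset.induction_on with
  | empty =>
    intro g hg hZ _
    exact exists_root_ball_of_ne_zero hg (fun z hz h0 => by simpa using hZ z hz h0) hn
  | insert w Z' hwZ ih =>
    intro g hg hZ hord
    by_cases hw : w ∈ ball c r
    · obtain ⟨k, hk⟩ := hord w hw
      obtain ⟨g₁, hg₁, hg₁w, hfac⟩ := exists_factor_of_order isOpen_ball hg hw hk
      have hZ₁ : ∀ z ∈ ball c r, g₁ z = 0 → z ∈ Z' := by
        intro z hz h0
        have hgz : g z = 0 := by rw [hfac z hz, h0, mul_zero]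
        have := hZ z hz hgz
        rcases Finset.mem_insert.mp this with h | h
        · subst h
          exact absurd h0 hg₁w
        · exact h
      have hord₁ : ∀ z ∈ ball c r, ∃ k : ℕ, analyticOrderAt g₁ z = ((n * k : ℕ) : ℕ∞) := by
        intro z hz
        have hg₁an : AnalyticAt ℂ g₁ z := hg₁.analyticAt (isOpen_ball.mem_nhds hz)
        by_cases hzw : z = w
        · subst hzw
          refine ⟨0, ?_⟩
          rw [mul_zero, Nat.cast_zero, hg₁an.analyticOrderAt_eq_zero]
          exact hg₁w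
        · obtain ⟨k', hk'⟩ := hord z hz
          refine ⟨k', ?_⟩
          have hpan : AnalyticAt ℂ (fun z' : ℂ => (z' - w) ^ (n * k)) z := by fun_prop
          have hp0 : analyticOrderAt (fun z' : ℂ => (z' - w) ^ (n * k)) z = 0 := by
            rw [hpan.analyticOrderAt_eq_zero]
            exact pow_ne_zero _ (sub_ne_zero.mpr hzw)
          have hcongr : g =ᶠ[𝓝 z] (fun z' : ℂ => (z' - w) ^ (n * k)) * g₁ := by
            filter_upwards [isOpen_ball.mem_nhds hz] with z' hz'
            exact hfac z' hz'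
          rw [← hk', analyticOrderAt_congr hcongr, analyticOrderAt_mul hpan hg₁an, hp0, zero_add]
      obtain ⟨h₁, hh₁, hh₁pow⟩ := ih g₁ hg₁ hZ₁ hord₁
      refine ⟨fun z => (z - w) ^ k * h₁ z, ?_, fun z hz => ?_⟩
      · exact (((differentiable_id.sub_const w).pow k).differentiableOn).mul hh₁
      · rw [mul_pow, hh₁pow z hz, hfac z hz, ← pow_mul, mul_comm k n]
    · refine ih g hg (fun z hz h0 => ?_) hord
      have := hZ z hz h0
      rcases Finset.mem_insert.mp this with h | h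
      · subst h
        exact absurd hz hw
      · exact h

open UpperHalfPlane Fermat.Agent.S24.H624 in
/-- Roots on a disc whose closure lies in the upper half-plane. -/
theorem exists_root_ball {g : ℍ → ℂ} (hg : MDiff g) (hg0 : g ≠ 0) {n : ℕ} (hn : n ≠ 0)
    (hord : ∀ τ : ℍ, n ∣ (ordAt τ g).toNat) {c : ℂ} {r : ℝ}
    (hcr : ∀ z ∈ closedBall c r, 0 < z.im) :
    ∃ h : ℂ → ℂ, DifferentiableOn ℂ h (ball c r) ∧
      ∀ z ∈ ball c r, h z ^ n = (g ∘ ofComplex) z := by
  classical
  have hfin := finite_zeros_in_compact hg hg0 (isCompact_closedBall c r) hcr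
  have hdiff : DifferentiableOn ℂ (g ∘ ofComplex) (ball c r) :=
    (UpperHalfPlane.mdifferentiable_iff.mp hg).mono
      (fun z hz => hcr z (ball_subset_closedBall hz))
  refine exists_root_ball_aux hn hfin.toFinset (g ∘ ofComplex) hdiff ?_ ?_
  · intro z hz h0
    rw [Set.Finite.mem_toFinset]
    exact ⟨ball_subset_closedBall hz, h0⟩
  · intro z hz
    have hzim : 0 < z.im := hcr z (ball_subset_closedBall hz)
    obtain ⟨k, hk⟩ := hord ⟨z, hzim⟩
    refine ⟨k, ?_⟩
    have hne := ordAt_ne_top hg hg0 ⟨z, hzim⟩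
    rw [ordAt_def] at hne hk
    rw [← hk]
    exact (ENat.natCast_toNat hne).symm

/-- Two holomorphic `n`-th roots of the same function on a connected open set which agree and
are nonzero at one point are equal. -/
theorem root_unique {U : Set ℂ} (hU : IsOpen U) (hUc : IsPreconnected U) {h₁ h₂ : ℂ → ℂ}
    (hd₁ : DifferentiableOn ℂ h₁ U) (hd₂ : DifferentiableOn ℂ h₂ U) {n : ℕ} (hn : n ≠ 0)
    (hpow : ∀ z ∈ U, h₁ z ^ n = h₂ z ^ n) {z₀ : ℂ} (hz₀ : z₀ ∈ U) (h0 : h₁ z₀ = h₂ z₀)
    (hne : h₁ z₀ ≠ 0) : EqOn h₁ h₂ U := by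
  have ha₁ := hd₁.analyticOnNhd hU
  have ha₂ := hd₂.analyticOnNhd hU
  refine ha₁.eqOn_of_preconnected_of_eventuallyEq ha₂ hUc hz₀ ?_
  set ψ : ℂ → ℂ := fun z => ∑ i ∈ Finset.range n, h₁ z ^ i * h₂ z ^ (n - 1 - i) with hψ
  have hc₁ : ContinuousAt h₁ z₀ := (hd₁.differentiableAt (hU.mem_nhds hz₀)).continuousAt
  have hc₂ : ContinuousAt h₂ z₀ := (hd₂.differentiableAt (hU.mem_nhds hz₀)).continuousAt
  have hψc : ContinuousAt ψ z₀ := by
    rw [hψ]
    exact tendsto_finsetSum _ fun i _ => (hc₁.pow i).mul (hc₂.pow (n - 1 - i))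
  have hψ0 : ψ z₀ ≠ 0 := by
    have hterm : ∀ i ∈ Finset.range n, h₁ z₀ ^ i * h₂ z₀ ^ (n - 1 - i) = h₁ z₀ ^ (n - 1) := by
      intro i hi
      rw [← h0, ← pow_add]
      congr 1
      have := Finset.mem_range.mp hi
      omega
    rw [hψ]
    simp only
    rw [Finset.sum_congr rfl hterm, Finset.sum_const, Finset.card_range, nsmul_eq_mul]
    exact mul_ne_zero (Nat.cast_ne_zero.mpr hn) (pow_ne_zero _ hne)
  filter_upwards [hψc.eventually_ne hψ0, hU.mem_nhds hz₀] with z hz hzU
  have hgs := (Commute.all (h₁ z) (h₂ z)).geom_sum₂_mul n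
  rw [hpow z hzU, sub_self] at hgs
  rcases mul_eq_zero.mp hgs with h | h
  · exact absurd h hz
  · exact sub_eq_zero.mp h

/-! ### an exhaustion of the upper half-plane by discs -/

/-- centre of the `k`-th disc -/
noncomputable def discC (k : ℕ) : ℂ := ⟨0, (k : ℝ) + 2⟩

/-- radius of the `k`-th disc -/
noncomputable def discR (k : ℕ) : ℝ := ((k : ℝ) + 2) - 1 / ((k : ℝ) + 2)

theorem discR_pos (k : ℕ) : 0 < discR k := by
  unfold discR
  have hk : (0 : ℝ) ≤ k := Nat.cast_nonneg k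
  have h1 : 1 / ((k : ℝ) + 2) ≤ 1 / 2 := by
    apply one_div_le_one_div_of_le <;> linarith
  linarith

theorem im_pos_of_mem_closedBall_disc {k : ℕ} {z : ℂ}
    (hz : z ∈ closedBall (discC k) (discR k)) : 0 < z.im := by
  rw [mem_closedBall, Complex.dist_eq] at hz
  have h1 : |(z - discC k).im| ≤ ‖z - discC k‖ := Complex.abs_im_le_norm _
  have h2 : (z - discC k).im = z.im - ((k : ℝ) + 2) := by simp [discC]
  rw [h2] at h1
  have h3 := (abs_le.mp (h1.trans hz)).1
  unfold discR at h3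
  have hk : (0 : ℝ) ≤ k := Nat.cast_nonneg k
  have h4 : 0 < 1 / ((k : ℝ) + 2) := by positivity
  linarith

theorem ball_disc_subset_succ (k : ℕ) :
    ball (discC k) (discR k) ⊆ ball (discC (k + 1)) (discR (k + 1)) := by
  intro z hz
  rw [mem_ball] at hz ⊢
  have hd : dist (discC k) (discC (k + 1)) = 1 := by
    rw [Complex.dist_eq]
    have : discC k - discC (k + 1) = ⟨0, -1⟩ := by
      apply Complex.ext <;> simp [discC]
    rw [this, Complex.norm_def, Complex.normSq_mk]
    norm_num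
  have htri := dist_triangle z (discC k) (discC (k + 1))
  rw [hd] at htri
  have hk : (0 : ℝ) ≤ k := Nat.cast_nonneg k
  have h5 : 1 / ((k : ℝ) + 1 + 2) ≤ 1 / ((k : ℝ) + 2) := by
    apply one_div_le_one_div_of_le <;> linarith
  unfold discR at hz ⊢
  push_cast
  linarith

theorem ball_disc_mono {k k' : ℕ} (h : k ≤ k') :
    ball (discC k) (discR k) ⊆ ball (discC k') (discR k') := by
  induction h with
  | refl => exact subset_rfl
  | step _ ih => exact ih.trans (ball_disc_subset_succ _)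

theorem exists_mem_ball_disc {z : ℂ} (hz : 0 < z.im) :
    ∃ k : ℕ, z ∈ ball (discC k) (discR k) := by
  obtain ⟨k, hk⟩ := exists_nat_gt ((z.re ^ 2 + z.im ^ 2 + 2) / (2 * z.im))
  refine ⟨k, ?_⟩
  rw [mem_ball, Complex.dist_eq]
  have hR : (0 : ℝ) < (k : ℝ) + 2 := by positivity
  have hk' : z.re ^ 2 + z.im ^ 2 + 2 < 2 * z.im * ((k : ℝ) + 2) := by
    have := (div_lt_iff₀ (by positivity : (0 : ℝ) < 2 * z.im)).mp hk
    nlinarith
  have hsq : ‖z - discC k‖ ^ 2 < discR k ^ 2 := by
    rw [Complex.sq_norm, Complex.normSq_apply]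
    have h1 : (z - discC k).re = z.re := by simp [discC]
    have h2 : (z - discC k).im = z.im - ((k : ℝ) + 2) := by simp [discC]
    rw [h1, h2]
    unfold discR
    have h3 : (((k : ℝ) + 2) - 1 / ((k : ℝ) + 2)) ^ 2
        = ((k : ℝ) + 2) ^ 2 - 2 + (1 / ((k : ℝ) + 2)) ^ 2 := by
      field_simp
      ring
    rw [h3]
    have h4 : 0 ≤ (1 / ((k : ℝ) + 2)) ^ 2 := sq_nonneg _
    nlinarith
  exact lt_of_pow_lt_pow_left₀ 2 (discR_pos k).le hsq

open UpperHalfPlane Fermat.Agent.S24.H624 in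
/-- **Holomorphic roots.** A nonzero holomorphic function on `ℍ` all of whose vanishing orders
are divisible by `n` is the `n`-th power of a holomorphic function. -/
theorem exists_holo_root {g : ℍ → ℂ} (hg : MDiff g) (hg0 : g ≠ 0) {n : ℕ} (hn : n ≠ 0)
    (hord : ∀ τ : ℍ, n ∣ (ordAt τ g).toNat) : ∃ h : ℍ → ℂ, MDiff h ∧ h ^ n = g := by
  classical
  obtain ⟨τ₀, hτ₀⟩ : ∃ τ₀ : ℍ, g τ₀ ≠ 0 := by
    by_contra hcon
    push Not at hcon
    exact hg0 (funext hcon)
  obtain ⟨a, ha⟩ : ∃ a : ℂ, a ^ n = g τ₀ := ⟨g τ₀ ^ (1 / (n : ℂ)), by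
    rw [one_div, Complex.cpow_nat_inv_pow _ hn]⟩
  have ha0 : a ≠ 0 := by
    rintro rfl
    rw [zero_pow hn] at ha
    exact hτ₀ ha.symm
  obtain ⟨k₀, hk₀⟩ := exists_mem_ball_disc τ₀.im_pos
  set D : ℕ → Set ℂ := fun k => ball (discC (k₀ + k)) (discR (k₀ + k)) with hD
  have hDmono : ∀ {k k' : ℕ}, k ≤ k' → D k ⊆ D k' := fun h =>
    ball_disc_mono (Nat.add_le_add_left h k₀)
  have hτ₀D : ∀ k, (τ₀ : ℂ) ∈ D k := fun k => ball_disc_mono (Nat.le_add_right k₀ k) hk₀
  have hDim : ∀ k, ∀ z ∈ D k, 0 < z.im := fun k z hz =>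
    im_pos_of_mem_closedBall_disc (ball_subset_closedBall hz)
  have hG : ∀ z : ℂ, ∀ hz : 0 < z.im, (g ∘ ofComplex) z = g ⟨z, hz⟩ := by
    intro z hz
    simp only [Function.comp_apply]
    rw [ofComplex_apply_of_im_pos hz]
  -- normalised roots on each disc
  have hroot : ∀ k, ∃ h : ℂ → ℂ, DifferentiableOn ℂ h (D k) ∧
      (∀ z ∈ D k, h z ^ n = (g ∘ ofComplex) z) ∧ h τ₀ = a := by
    intro k
    obtain ⟨r, hr, hrpow⟩ := exists_root_ball hg hg0 hn hord
      (c := discC (k₀ + k)) (r := discR (k₀ + k)) (fun z hz => im_pos_of_mem_closedBall_disc hz)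
    have hr0 : r τ₀ ^ n = g τ₀ := by
      rw [hrpow _ (hτ₀D k), hG _ τ₀.im_pos]
    have hrne : r τ₀ ≠ 0 := by
      intro h
      rw [h, zero_pow hn] at hr0
      exact hτ₀ hr0.symm
    refine ⟨fun z => a / r τ₀ * r z, (hr.const_mul _), fun z hz => ?_, ?_⟩
    · rw [mul_pow, div_pow, ha, hr0, div_self hτ₀, one_mul, hrpow z hz]
    · simp only
      rw [div_mul_cancel₀ _ hrne]
  choose h hdiff hpow hval using hroot
  have hcons : ∀ {k k' : ℕ}, k ≤ k' → EqOn (h k) (h k') (D k) := by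
    intro k k' hkk'
    refine root_unique isOpen_ball (convex_ball _ _).isPreconnected (hdiff k)
      ((hdiff k').mono (hDmono hkk')) hn (fun z hz => ?_) (hτ₀D k) ?_ ?_
    · rw [hpow k z hz, hpow k' z (hDmono hkk' hz)]
    · rw [hval k, hval k']
    · rw [hval k]; exact ha0
  have hex : ∀ z : ℂ, 0 < z.im → ∃ k, z ∈ D k := by
    intro z hz
    obtain ⟨k, hk⟩ := exists_mem_ball_disc hz
    exact ⟨k, ball_disc_mono (Nat.le_add_left k k₀) hk⟩
  set H : ℍ → ℂ := fun τ => h (Classical.choose (hex τ τ.im_pos)) τ with hH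
  have hHeq : ∀ k, ∀ z ∈ D k, (H ∘ ofComplex) z = h k z := by
    intro k z hz
    have hzim := hDim k z hz
    simp only [Function.comp_apply, hH]
    rw [ofComplex_apply_of_im_pos hzim]
    set k' := Classical.choose (hex ((⟨z, hzim⟩ : ℍ) : ℂ) (⟨z, hzim⟩ : ℍ).im_pos) with hk'
    have hzk' : z ∈ D k' := Classical.choose_spec (hex ((⟨z, hzim⟩ : ℍ) : ℂ) (⟨z, hzim⟩ : ℍ).im_pos)
    show h k' z = h k z
    rw [hcons (le_max_left k' k) hzk', hcons (le_max_right k' k) hz]
  refine ⟨H, ?_, ?_⟩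
  · rw [UpperHalfPlane.mdifferentiable_iff]
    intro z hz
    obtain ⟨k, hk⟩ := hex z hz
    have heq : (H ∘ ofComplex) =ᶠ[𝓝 z] h k := by
      filter_upwards [isOpen_ball.mem_nhds hk] with w hw
      exact hHeq k w hw
    exact (((hdiff k).differentiableAt (isOpen_ball.mem_nhds hk)).congr_of_eventuallyEq
      heq).differentiableWithinAt
  · funext τ
    obtain ⟨k, hk⟩ := hex τ τ.im_pos
    have h1 := hHeq k τ hk
    simp only [Function.comp_apply, ofComplex_apply] at h1
    rw [Pi.pow_apply, h1, hpow k τ hk]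
    simp only [Function.comp_apply, ofComplex_apply]

open UpperHalfPlane Fermat.Agent.S24.H624 in
/-- **Roots in `MerH`.** A nonzero element of `MerH` all of whose orders are divisible by `n`
is an `n`-th power in `MerH`. -/
theorem exists_root_MerH {F : MerH} (hF : F ≠ 0) {n : ℕ} (hn : n ≠ 0)
    (hord : ∀ τ : ℍ, (n : ℤ) ∣ ordM τ F) : ∃ H : MerH, H ^ n = F := by
  obtain ⟨a, b, hb, rfl⟩ := IsFractionRing.div_surjective (A := holoRing) F
  have hb0 : b ≠ 0 := nonZeroDivisors.ne_zero hb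
  have hbK : algebraMap holoRing MerH b ≠ 0 := algebraMap_MerH_ne_zero hb0
  have ha0 : a ≠ 0 := by
    rintro rfl
    simp at hF
  have haK : algebraMap holoRing MerH a ≠ 0 := algebraMap_MerH_ne_zero ha0
  set G : holoRing := a * b ^ (n - 1) with hGdef
  have hG0 : G ≠ 0 := mul_ne_zero ha0 (pow_ne_zero _ hb0)
  have hGord : ∀ τ : ℍ, n ∣ (ordAt τ (G : ℍ → ℂ)).toNat := by
    intro τ
    have h1 : ordM τ (algebraMap holoRing MerH G)
        = ordM τ (algebraMap holoRing MerH a / algebraMap holoRing MerH b)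
          + n * ordM τ (algebraMap holoRing MerH b) := by
      rw [hGdef, map_mul, map_pow, ordM_mul τ haK (pow_ne_zero _ hbK), ordM_pow,
        ordM_div τ haK hbK]
      have : ((n - 1 : ℕ) : ℤ) = (n : ℤ) - 1 := by
        rw [Nat.cast_sub (Nat.one_le_iff_ne_zero.mpr hn)]; simp
      rw [this]
      ring
    have h2 : (n : ℤ) ∣ ordM τ (algebraMap holoRing MerH G) := by
      rw [h1]
      exact dvd_add (hord τ) (dvd_mul_right _ _)
    rw [ordM_algebraMap τ hG0] at h2
    exact Int.natCast_dvd_natCast.mp h2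
  obtain ⟨h, hh, hpow⟩ := exists_holo_root G.2 (fun h0 => hG0 (Subtype.ext h0)) hn hGord
  refine ⟨algebraMap holoRing MerH ⟨h, hh⟩ / algebraMap holoRing MerH b, ?_⟩
  have hpow' : (⟨h, hh⟩ : holoRing) ^ n = G := Subtype.ext (by simpa using hpow)
  rw [div_pow, ← map_pow, hpow', hGdef, map_mul, map_pow]
  rw [div_eq_div_iff (pow_ne_zero _ hbK) hbK, mul_assoc, ← pow_succ,
    Nat.sub_add_cancel (Nat.one_le_iff_ne_zero.mpr hn)]

end Fermat.Agent.A3.H559
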